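import Mathlib

/-!
# Connectedness of the special fibre, elementary form

`R₀` is a subring of `F` containing a prime element `π`, `Bp`, `Bm` two "charts" and `Bpm` the
overlap.  If the torsion of `Bpm / (Bp + Bm)` is bounded and `Bp ∩ Bm = R₀` then compatible
idempotents of `Bp / π` and `Bm / π` are trivial.
-/

set_option autoImplicit false

namespace Fermat.Agent.Connect

section Idem

variable {F : Type*} [CommRing F]

/-- Newton iteration for idempotents. -/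
lemma exists_lift_idem (B : Subring F) {p : F} (hp : p ∈ B) {e : F} (he : e ∈ B)
    (h : ∃ z ∈ B, e ^ 2 - e = p * z) (m : ℕ) :
    ∃ a ∈ B, (∃ z ∈ B, a - e = p * z) ∧ ∃ z ∈ B, a ^ 2 - a = p ^ (m + 1) * z := by
  induction m with
  | zero => 
    obtain ⟨z, hz, hz'⟩ := h
    exact ⟨e, he, ⟨0, B.zero_mem, by ring⟩, z, hz, by rw [hz']; ring⟩
  | succ m ih =>
    obtain ⟨a, ha, ⟨z, hz, hz'⟩, ⟨w, hw, hw'⟩⟩ := ih
    refine ⟨3 * a ^ 2 - 2 * a ^ 3, ?_, ⟨z + (1 - 2 * a) * (p ^ m * w), ?_, ?_⟩,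
      ⟨p ^ m * w ^ 2 * (4 * a ^ 2 - 4 * a - 3), ?_, ?_⟩⟩
    · refine B.sub_mem (B.mul_mem ?_ (B.pow_mem ha 2)) (B.mul_mem ?_ (B.pow_mem ha 3))
      · exact_mod_cast natCast_mem B 3
      · exact_mod_cast natCast_mem B 2
    · refine B.add_mem hz (B.mul_mem (B.sub_mem B.one_mem (B.mul_mem ?_ ha))
        (B.mul_mem (B.pow_mem hp m) hw))
      exact_mod_cast natCast_mem B 2
    · have : 3 * a ^ 2 - 2 * a ^ 3 - e = (a - e) + (1 - 2 * a) * (a ^ 2 - a) := by ring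
      rw [this, hz', hw']; ring
    · refine B.mul_mem (B.mul_mem (B.pow_mem hp m) (B.pow_mem hw 2)) ?_
      refine B.sub_mem (B.sub_mem (B.mul_mem ?_ (B.pow_mem ha 2)) (B.mul_mem ?_ ha)) ?_
      · exact_mod_cast natCast_mem B 4
      · exact_mod_cast natCast_mem B 4
      · exact_mod_cast natCast_mem B 3
    · have : (3 * a ^ 2 - 2 * a ^ 3) ^ 2 - (3 * a ^ 2 - 2 * a ^ 3)
          = (a ^ 2 - a) ^ 2 * (4 * a ^ 2 - 4 * a - 3) := by ring
      rw [this, hw']; ring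

/-- Uniqueness of lifts of idempotents. -/
lemma idem_unique (B : Subring F) {p : F} (hp : p ∈ B) {a b : F} (ha : a ∈ B) (hb : b ∈ B)
    {m : ℕ} (h1 : ∃ z ∈ B, a ^ 2 - a = p ^ m * z) (h2 : ∃ z ∈ B, b ^ 2 - b = p ^ m * z)
    (h3 : ∃ z ∈ B, a - b = p * z) : ∃ z ∈ B, a - b = p ^ m * z := by
  obtain ⟨u, hu, hu'⟩ := h1
  obtain ⟨v, hv, hv'⟩ := h2
  -- `d - d^3 ∈ p^m`
  have key : ∃ w ∈ B, (a - b) - (a - b) ^ 3 = p ^ m * w := by
    refine ⟨(3 * b - a - 1) * u + (1 + b - 3 * a) * v, ?_, ?_⟩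
    · have h3 : (3 : F) ∈ B := by exact_mod_cast natCast_mem B 3
      exact B.add_mem
        (B.mul_mem (B.sub_mem (B.sub_mem (B.mul_mem h3 hb) ha) B.one_mem) hu)
        (B.mul_mem (B.sub_mem (B.add_mem B.one_mem hb) (B.mul_mem h3 ha)) hv)
    · have : (a - b) - (a - b) ^ 3
          = (3 * b - a - 1) * (a ^ 2 - a) + (1 + b - 3 * a) * (b ^ 2 - b) := by ring
      rw [this, hu', hv']; ring
  obtain ⟨w, hw, hw'⟩ := key
  -- induction : `d ∈ p^k` for all `k ≤ m`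
  have : ∀ k : ℕ, k ≤ m → ∃ z ∈ B, a - b = p ^ k * z := by
    intro k
    induction k with
    | zero => intro _; exact ⟨a - b, B.sub_mem ha hb, by simp⟩
    | succ k ih =>
      intro hk
      rcases Nat.eq_zero_or_pos k with rfl | hk0
      · simpa using h3
      obtain ⟨z, hz, hz'⟩ := ih (by omega)
      refine ⟨p ^ (m - (k + 1)) * w + p ^ (3 * k - (k + 1)) * z ^ 3, ?_, ?_⟩
      · exact B.add_mem (B.mul_mem (B.pow_mem hp _) hw) (B.mul_mem (B.pow_mem hp _) (B.pow_mem hz 3))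
      · have e1 : a - b = p ^ m * w + (a - b) ^ 3 := by rw [← hw']; ring
        have e2 : (a - b) ^ 3 = p ^ (3 * k) * z ^ 3 := by rw [hz']; ring
        have e3 : p ^ m = p ^ (k + 1) * p ^ (m - (k + 1)) := by
          rw [← pow_add]; congr 1; omega
        have e4 : p ^ (3 * k) = p ^ (k + 1) * p ^ (3 * k - (k + 1)) := by
          rw [← pow_add]; congr 1; omega
        rw [e1, e2, e3, e4]; ring
  exact this m le_rfl

end Idem

section Prime

variable {R : Type*} [CommRing R] [IsDomain R]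

/-- If `π` is prime and `π^m ∣ r (r - π^c)` with `2c < m`, then `π^(m-c)` divides `r` or
`r - π^c`. -/
lemma dvd_or_dvd_sub {π : R} (hπ : Prime π) {r : R} {c m : ℕ} (hm : 2 * c < m)
    (h : π ^ m ∣ r * (r - π ^ c)) : π ^ (m - c) ∣ r ∨ π ^ (m - c) ∣ r - π ^ c := by
  by_cases h1 : π ^ (c + 1) ∣ r
  · left
    obtain ⟨s, rfl⟩ := h1
    have hs : ¬ π ∣ π * s - 1 := by
      intro hd
      have : π ∣ 1 := by
        have := (dvd_sub (dvd_mul_right π s) hd)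
        simpa using this
      exact hπ.not_isUnit (isUnit_of_dvd_one this)
    have h2 : π ^ (c + 1) * s - π ^ c = π ^ c * (π * s - 1) := by ring
    rw [h2] at h
    have h3 : π ^ m = π ^ c * π ^ (m - c) := by rw [← pow_add]; congr 1; omega
    rw [h3, show π ^ (c + 1) * s * (π ^ c * (π * s - 1))
      = π ^ c * (π ^ (c + 1) * s * (π * s - 1)) by ring] at h
    have h4 := (mul_dvd_mul_iff_left (pow_ne_zero c hπ.ne_zero)).1 h
    exact (hπ.pow_dvd_of_dvd_mul_right _ hs h4)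
  · right
    -- maximal power of `π` dividing `r`
    have : ∃ k ≤ c, π ^ k ∣ r ∧ ¬ π ^ (k + 1) ∣ r := by
      by_contra hcon
      push Not at hcon
      have : ∀ k ≤ c + 1, π ^ k ∣ r := by
        intro k
        induction k with
        | zero => intro _; simp
        | succ k ih => intro hk; exact hcon k (by omega) (ih (by omega))
      exact h1 (this (c + 1) le_rfl)
    obtain ⟨k, hkc, ⟨s, hs⟩, hk⟩ := this
    have hs' : ¬ π ∣ s := by
      rintro ⟨u, rfl⟩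
      exact hk ⟨u, by rw [hs]; ring⟩
    rw [hs, show π ^ m = π ^ k * π ^ (m - k) by rw [← pow_add]; congr 1; omega, mul_assoc] at h
    have h4 := (mul_dvd_mul_iff_left (pow_ne_zero k hπ.ne_zero)).1 h
    have h5 := hπ.pow_dvd_of_dvd_mul_left _ hs' h4
    rw [hs]
    exact (pow_dvd_pow π (by omega)).trans h5

end Prime

section Main

variable {F : Type*} [CommRing F]

/-- **Connectedness of the special fibre.** -/
theorem idem_trivial (R₀ Bp Bm Bpm : Subring F) [IsDomain R₀] (π : R₀) (hπ : Prime π)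
    (hnzd : ∀ x : F, (π : F) * x = 0 → x = 0)
    (hp : R₀ ≤ Bp) (hm : R₀ ≤ Bm) (hpp : Bp ≤ Bpm) (hmm : Bm ≤ Bpm)
    (hint : ∀ x ∈ Bp, x ∈ Bm → x ∈ R₀)
    (hbd : ∃ c₀ : ℕ, ∀ c ∈ Bpm, (∃ m : ℕ, ∃ a ∈ Bp, ∃ b ∈ Bm, (π : F) ^ m * c = a - b) →
      ∃ a ∈ Bp, ∃ b ∈ Bm, (π : F) ^ c₀ * c = a - b)
    {e₁ e₂ : F} (he₁ : e₁ ∈ Bp) (he₂ : e₂ ∈ Bm)
    (h1 : ∃ z ∈ Bp, e₁ ^ 2 - e₁ = π * z) (h2 : ∃ z ∈ Bm, e₂ ^ 2 - e₂ = π * z)
    (h3 : ∃ z ∈ Bpm, e₁ - e₂ = π * z) :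
    (∃ z ∈ Bp, e₁ = π * z) ∨ (∃ z ∈ Bp, e₁ - 1 = π * z) := by
  obtain ⟨c, hc⟩ := hbd
  have hcancel : ∀ (k : ℕ) (x y : F), (π : F) ^ k * x = (π : F) ^ k * y → x = y := by
    intro k
    induction k with
    | zero => intro x y h; simpa using h
    | succ k ih =>
      intro x y h
      have h' : (π : F) * ((π : F) ^ k * (x - y)) = 0 := by
        have : (π : F) ^ (k + 1) * x - (π : F) ^ (k + 1) * y = 0 := sub_eq_zero.2 h
        rw [← this]; ring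
      have h'' := hnzd _ h'
      apply ih
      rw [← sub_eq_zero, ← h'']; ring
  have hπp : (π : F) ∈ Bp := hp π.2
  have hπm : (π : F) ∈ Bm := hm π.2
  have hπpm : (π : F) ∈ Bpm := hpp hπp
  set m := 2 * c + 1 with hmdef
  obtain ⟨a, ha, ⟨za, hza, hza'⟩, ⟨wa, hwa, hwa'⟩⟩ := exists_lift_idem Bp hπp he₁ h1 (2 * c)
  obtain ⟨b, hb, ⟨zb, hzb, hzb'⟩, ⟨wb, hwb, hwb'⟩⟩ := exists_lift_idem Bm hπm he₂ h2 (2 * c)
  rw [← hmdef] at hwa' hwb'
  have hab : ∃ z ∈ Bpm, a - b = π * z := by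
    obtain ⟨z, hz, hz'⟩ := h3
    refine ⟨z + za - zb, Bpm.sub_mem (Bpm.add_mem hz (hpp hza)) (hmm hzb), ?_⟩
    have : a - b = (e₁ - e₂) + (a - e₁) - (b - e₂) := by ring
    rw [this, hz', hza', hzb']; ring
  obtain ⟨z, hz, hz'⟩ := idem_unique Bpm hπpm (hpp ha) (hmm hb) ⟨wa, hpp hwa, hwa'⟩
    ⟨wb, hmm hwb, hwb'⟩ hab
  obtain ⟨a', ha', b', hb', hab'⟩ := hc z hz ⟨m, a, ha, b, hb, hz'.symm⟩
  -- the constant `r`
  set r : F := (π : F) ^ c * a - (π : F) ^ m * a' with hr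
  have hr' : r = (π : F) ^ c * b - (π : F) ^ m * b' := by
    have : (π : F) ^ c * (a - b) = (π : F) ^ m * (a' - b') := by
      rw [hz', ← hab']; ring
    have h' : r - ((π : F) ^ c * b - (π : F) ^ m * b')
        = (π : F) ^ c * (a - b) - (π : F) ^ m * (a' - b') := by rw [hr]; ring
    rw [← sub_eq_zero, h', this, sub_self]
  have hrp : r ∈ Bp := Bp.sub_mem (Bp.mul_mem (Bp.pow_mem hπp _) ha)
    (Bp.mul_mem (Bp.pow_mem hπp _) ha')
  have hrm : r ∈ Bm := by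
    rw [hr']
    exact Bm.sub_mem (Bm.mul_mem (Bm.pow_mem hπm _) hb) (Bm.mul_mem (Bm.pow_mem hπm _) hb')
  have hr0 : r ∈ R₀ := hint r hrp hrm
  have hmc : m = c + (m - c) := by omega
  -- `r (r - π^c) = π^m * z`
  have hq1 : ∃ y ∈ Bp, r * (r - (π : F) ^ c) = (π : F) ^ m * y := by
    refine ⟨(π : F) ^ (2 * c) * wa - 2 * (π : F) ^ c * a * a' + (π : F) ^ m * a' ^ 2
      + (π : F) ^ c * a', ?_, ?_⟩
    · have h2 : (2 : F) ∈ Bp := by exact_mod_cast natCast_mem Bp 2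
      refine Bp.add_mem (Bp.add_mem (Bp.sub_mem (Bp.mul_mem (Bp.pow_mem hπp _) hwa) ?_) ?_) ?_
      · exact Bp.mul_mem (Bp.mul_mem (Bp.mul_mem h2 (Bp.pow_mem hπp _)) ha) ha'
      · exact Bp.mul_mem (Bp.pow_mem hπp _) (Bp.pow_mem ha' 2)
      · exact Bp.mul_mem (Bp.pow_mem hπp _) ha'
    · have : r * (r - (π : F) ^ c) = (π : F) ^ (2 * c) * (a ^ 2 - a)
        - 2 * (π : F) ^ m * (π : F) ^ c * a * a' + (π : F) ^ m * (π : F) ^ m * a' ^ 2
        + (π : F) ^ c * (π : F) ^ m * a' := by rw [hr]; ring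
      rw [this, hwa']; ring
  have hq2 : ∃ y ∈ Bm, r * (r - (π : F) ^ c) = (π : F) ^ m * y := by
    refine ⟨(π : F) ^ (2 * c) * wb - 2 * (π : F) ^ c * b * b' + (π : F) ^ m * b' ^ 2
      + (π : F) ^ c * b', ?_, ?_⟩
    · have h2 : (2 : F) ∈ Bm := by exact_mod_cast natCast_mem Bm 2
      refine Bm.add_mem (Bm.add_mem (Bm.sub_mem (Bm.mul_mem (Bm.pow_mem hπm _) hwb) ?_) ?_) ?_
      · exact Bm.mul_mem (Bm.mul_mem (Bm.mul_mem h2 (Bm.pow_mem hπm _)) hb) hb'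
      · exact Bm.mul_mem (Bm.pow_mem hπm _) (Bm.pow_mem hb' 2)
      · exact Bm.mul_mem (Bm.pow_mem hπm _) hb'
    · have : r * (r - (π : F) ^ c) = (π : F) ^ (2 * c) * (b ^ 2 - b)
        - 2 * (π : F) ^ m * (π : F) ^ c * b * b' + (π : F) ^ m * (π : F) ^ m * b' ^ 2
        + (π : F) ^ c * (π : F) ^ m * b' := by rw [hr']; ring
      rw [this, hwb']; ring
  obtain ⟨y, hy, hy'⟩ := hq1
  obtain ⟨y2, hy2, hy2'⟩ := hq2
  have hyy : y = y2 := hcancel m _ _ (by rw [← hy', ← hy2'])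
  have hy0 : y ∈ R₀ := hint y hy (hyy ▸ hy2)
  -- in R₀
  have hdvd : π ^ m ∣ (⟨r, hr0⟩ : R₀) * (⟨r, hr0⟩ - π ^ c) := by
    refine ⟨⟨y, hy0⟩, Subtype.ext ?_⟩
    simpa using hy'
  have hfin : ∀ {s : F}, s ∈ Bp → (∃ w ∈ Bp, (π : F) ^ c * s = (π : F) ^ (m - c) * w) →
      ∃ w ∈ Bp, s = π * w := by
    rintro s hs ⟨w, hw, hw'⟩
    refine ⟨w, hw, hcancel c _ _ ?_⟩
    rw [hw', show m - c = c + 1 by omega]; ring
  rcases dvd_or_dvd_sub hπ (by omega : 2 * c < m) hdvd with ⟨s, hs⟩ | ⟨s, hs⟩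
  · left
    have hs' : r = (π : F) ^ (m - c) * s := by
      have := congrArg Subtype.val hs
      simpa using this
    have : ∃ w ∈ Bp, a = π * w := hfin ha ⟨s + (π : F) ^ c * a',
      Bp.add_mem (hp s.2) (Bp.mul_mem (Bp.pow_mem hπp _) ha'), by
        have : (π : F) ^ c * a = r + (π : F) ^ m * a' := by rw [hr]; ring
        rw [this, hs']
        have e1 : (π : F) ^ m = (π : F) ^ (m - c) * (π : F) ^ c := by
          rw [← pow_add]; congr 1; omega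
        rw [e1]; ring⟩
    obtain ⟨w, hw, hw'⟩ := this
    refine ⟨w - za, Bp.sub_mem hw hza, ?_⟩
    have : e₁ = a - (a - e₁) := by ring
    rw [this, hw', ← hw', hza', hw']; ring
  · right
    have hs' : r - (π : F) ^ c = (π : F) ^ (m - c) * s := by
      have := congrArg Subtype.val hs
      simpa using this
    have : ∃ w ∈ Bp, a - 1 = π * w := hfin (Bp.sub_mem ha Bp.one_mem) ⟨s + (π : F) ^ c * a',
      Bp.add_mem (hp s.2) (Bp.mul_mem (Bp.pow_mem hπp _) ha'), by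
        have : (π : F) ^ c * (a - 1) = (r - (π : F) ^ c) + (π : F) ^ m * a' := by rw [hr]; ring
        rw [this, hs']
        have e1 : (π : F) ^ m = (π : F) ^ (m - c) * (π : F) ^ c := by
          rw [← pow_add]; congr 1; omega
        rw [e1]; ring⟩
    obtain ⟨w, hw, hw'⟩ := this
    refine ⟨w - za, Bp.sub_mem hw hza, ?_⟩
    have : e₁ - 1 = (a - 1) - (a - e₁) := by ring
    rw [this, hw', hza']; ring

end Main

end Fermat.Agent.Connect
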