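import Mathlib

/-!
# Regular two-dimensional local rings are factorial, elementary form

A Noetherian local domain `O` with a prime element `π` such that every ideal of `O ⧸ (π)` is
principal is a UFD.
-/

set_option autoImplicit false

namespace Fermat.Agent.Connect

open Ideal

variable {O : Type*} [CommRing O]

/-- Nakayama: a prime ideal not containing `π` is principal if `O/π` is a PIR. -/
theorem isPrincipal_of_notMem [IsNoetherianRing O] [IsLocalRing O] {π : O} (hπ : Prime π)
    [IsPrincipalIdealRing (O ⧸ span {π})] (P : Ideal O) [hP : P.IsPrime] (hπP : π ∉ P) :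
    ∃ x, P = span {x} := by
  obtain ⟨y, hy⟩ := (IsPrincipalIdealRing.principal (P.map (Ideal.Quotient.mk (span {π})))).principal
  have hy' : y ∈ P.map (Ideal.Quotient.mk (span {π})) := by
    rw [hy]; exact Submodule.mem_span_singleton_self y
  obtain ⟨x, hxP, rfl⟩ := (Ideal.mem_map_iff_of_surjective _ Ideal.Quotient.mk_surjective).1 hy'
  refine ⟨x, le_antisymm ?_ ((Ideal.span_singleton_le_iff_mem _).2 hxP)⟩
  have hmax : π ∈ IsLocalRing.maximalIdeal O := (IsLocalRing.mem_maximalIdeal π).2 hπ.not_isUnit
  refine Submodule.le_of_le_smul_of_le_jacobson_bot (I := span {π}) (N := span {x}) (N' := P)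
    (IsNoetherian.noetherian P) ?_ ?_
  · rw [Ideal.span_singleton_le_iff_mem]
    exact IsLocalRing.maximalIdeal_le_jacobson ⊥ hmax
  · intro z hz
    have hz' : Ideal.Quotient.mk (span {π}) z ∈ P.map (Ideal.Quotient.mk (span {π})) :=
      Ideal.mem_map_of_mem _ hz
    rw [hy] at hz'
    obtain ⟨a, ha⟩ := Submodule.mem_span_singleton.1 hz'
    obtain ⟨a, rfl⟩ := Ideal.Quotient.mk_surjective a
    rw [smul_eq_mul, ← map_mul, eq_comm, Ideal.Quotient.eq, Ideal.mem_span_singleton] at ha
    obtain ⟨b, hb⟩ := ha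
    have hbP : b ∈ P := by
      have h1 : π * b ∈ P := by
        rw [← hb]; exact P.sub_mem hz (P.mul_mem_left _ hxP)
      exact (hP.mem_or_mem h1).resolve_left hπP
    have hz'' : z = a * x + π * b := by rw [← hb]; ring
    rw [hz'']
    refine Submodule.add_mem_sup (Ideal.mul_mem_left _ _ (Ideal.mem_span_singleton_self x)) ?_
    exact Submodule.smul_mem_smul (Ideal.mem_span_singleton_self π) hbP

/-- **UFD lemma.** -/
theorem ufd_of_quotient [IsDomain O] [IsNoetherianRing O] [IsLocalRing O] {π : O} (hπ : Prime π)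
    [IsPrincipalIdealRing (O ⧸ span {π})] : UniqueFactorizationMonoid O := by
  rw [UniqueFactorizationMonoid.iff_exists_prime_mem_of_isPrime]
  intro P hP0 hP
  by_cases hπP : π ∈ P
  · exact ⟨π, hπP, hπ⟩
  · obtain ⟨x, rfl⟩ := isPrincipal_of_notMem hπ P hπP
    refine ⟨x, Ideal.mem_span_singleton_self x, (Ideal.span_singleton_prime ?_).1 hP⟩
    rintro rfl
    exact hP0 (by simp)

/-- A Noetherian local ring whose maximal ideal is generated by a non-nilpotent element is a
domain. -/
theorem isDomain_of_maximalIdeal_span [IsNoetherianRing O] [IsLocalRing O] {y : O}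
    (hm : IsLocalRing.maximalIdeal O = span {y}) (hy : ∀ n : ℕ, y ^ n ≠ 0) : IsDomain O := by
  have hkr : ⨅ i : ℕ, (IsLocalRing.maximalIdeal O) ^ i = ⊥ :=
    Ideal.iInf_pow_eq_bot_of_isLocalRing _ (IsLocalRing.maximalIdeal.isMaximal O).ne_top
  have key : ∀ a : O, a ≠ 0 → ∃ (n : ℕ) (u : O), IsUnit u ∧ a = u * y ^ n := by
    intro a ha
    have h1 : ∃ n : ℕ, a ∉ (IsLocalRing.maximalIdeal O) ^ n := by
      by_contra hcon
      push Not at hcon
      apply ha
      have : a ∈ ⨅ i : ℕ, (IsLocalRing.maximalIdeal O) ^ i := by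
        rw [Submodule.mem_iInf]; exact hcon
      rw [hkr] at this
      simpa using this
    classical
    have h2 := Nat.find_spec h1
    have hpos : Nat.find h1 ≠ 0 := by
      intro h0
      rw [h0] at h2
      simp at h2
    obtain ⟨n, hn⟩ := Nat.exists_eq_succ_of_ne_zero hpos
    have h3 : a ∈ (IsLocalRing.maximalIdeal O) ^ n := by
      by_contra hcon
      have := Nat.find_min' h1 hcon
      omega
    rw [hn] at h2
    rw [hm, Ideal.span_singleton_pow, Ideal.mem_span_singleton] at h3
    obtain ⟨u, hu⟩ := h3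
    refine ⟨n, u, ?_, by rw [hu]; ring⟩
    by_contra hu'
    have h4 : u ∈ IsLocalRing.maximalIdeal O := (IsLocalRing.mem_maximalIdeal u).2 hu'
    rw [hm, Ideal.mem_span_singleton] at h4
    obtain ⟨v, rfl⟩ := h4
    apply h2
    rw [hm, Ideal.span_singleton_pow, Ideal.mem_span_singleton]
    exact ⟨v, by rw [hu, pow_succ]; ring⟩
  have : NoZeroDivisors O := by
    constructor
    intro a b hab
    by_contra hcon
    push Not at hcon
    obtain ⟨n, u, hu, rfl⟩ := key a hcon.1
    obtain ⟨m, v, hv, rfl⟩ := key b hcon.2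
    have : u * v * y ^ (n + m) = 0 := by rw [← hab]; ring
    have h5 : IsUnit (u * v) := hu.mul hv
    exact hy (n + m) ((h5.mul_right_eq_zero).1 this)
  exact NoZeroDivisors.to_isDomain O

/-- A Noetherian local domain whose maximal ideal is generated by `x` and `y`, where no power of `y`
is divisible by `x`: then `x` is prime and `O/x` is a principal ideal ring. -/
theorem prime_of_span_pair [IsNoetherianRing O] [IsLocalRing O] {x y : O}
    (hm : IsLocalRing.maximalIdeal O = span {x, y}) (hx : x ≠ 0)
    (hy : ∀ n : ℕ, ¬ x ∣ y ^ n) :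
    Prime x ∧ IsPrincipalIdealRing (O ⧸ span {x}) := by
  have hxu : ¬ IsUnit x := by
    intro h
    exact hy 0 (h.dvd)
  have hne : span {x} ≠ (⊤ : Ideal O) := by
    rwa [Ne, Ideal.span_singleton_eq_top]
  have : Nontrivial (O ⧸ span {x}) := Ideal.Quotient.nontrivial_iff.2 hne
  have : IsLocalRing (O ⧸ span {x}) :=
    IsLocalRing.of_surjective' (Ideal.Quotient.mk _) Ideal.Quotient.mk_surjective
  have hmax : IsLocalRing.maximalIdeal (O ⧸ span {x}) =
      span {Ideal.Quotient.mk (span {x}) y} := by
    rw [← IsLocalRing.map_maximalIdeal_of_surjective _ Ideal.Quotient.mk_surjective, hm,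
      Ideal.map_span, Set.image_pair]
    have : Ideal.Quotient.mk (span {x}) x = 0 := by
      rw [Ideal.Quotient.eq_zero_iff_mem]; exact Ideal.mem_span_singleton_self x
    rw [this]
    simp [Ideal.span_insert]
  have hdom : IsDomain (O ⧸ span {x}) := by
    refine isDomain_of_maximalIdeal_span hmax ?_
    intro n hn
    rw [← map_pow, Ideal.Quotient.eq_zero_iff_mem, Ideal.mem_span_singleton] at hn
    exact hy n hn
  refine ⟨(Ideal.span_singleton_prime hx).1 ((Ideal.Quotient.isDomain_iff_prime _).1 hdom), ?_⟩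
  have htfae := tfae_of_isNoetherianRing_of_isLocalRing_of_isDomain (O ⧸ span {x})
  refine (htfae.out 0 4).2 ?_
  rw [hmax]
  exact ⟨⟨_, rfl⟩⟩

/-- A Noetherian local domain whose maximal ideal is generated by two elements `x`, `y` such that
no power of `y` is divisible by `x` (so the dimension is two) is a UFD. -/
theorem ufd_of_span_pair [IsDomain O] [IsNoetherianRing O] [IsLocalRing O] {x y : O}
    (hm : IsLocalRing.maximalIdeal O = span {x, y}) (hx : x ≠ 0)
    (hy : ∀ n : ℕ, ¬ x ∣ y ^ n) : UniqueFactorizationMonoid O := by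
  obtain ⟨h1, h2⟩ := prime_of_span_pair hm hx hy
  exact ufd_of_quotient h1

end Fermat.Agent.Connect
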