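import Mathlib

/-!
# From local `N`-th roots on the special fibre to a global `N`-th root

Abstract form of the statement: a `μ_N`-torsor of a curve over a DVR which is trivial on the special
fibre (and unramified) is trivial on the generic fibre, up to constants.
-/

set_option autoImplicit false

namespace Fermat.Agent.Connect

open Ideal

section Frac

variable {F : Type*} [Field F]

/-- `B` contains every `x` with `x ^ N ∈ B`. -/
def RootClosed (B : Subring F) (N : ℕ) : Prop := ∀ x : F, x ^ N ∈ B → x ∈ B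

/-- The set of `y` with `y ^ N / f ∈ B`: the sections of the `N`-th root of `(f)`. -/
def rootSet (B : Subring F) (N : ℕ) (f : F) : Set F := {y | y ^ N / f ∈ B}

lemma mem_rootSet {B : Subring F} {N : ℕ} {f y : F} : y ∈ rootSet B N f ↔ y ^ N / f ∈ B := Iff.rfl

lemma rootSet_zero {B : Subring F} {N : ℕ} (hN : N ≠ 0) {f : F} : (0 : F) ∈ rootSet B N f := by
  rw [mem_rootSet, zero_pow hN, zero_div]; exact B.zero_mem

lemma rootSet_mono {B B' : Subring F} (h : B ≤ B') {N : ℕ} {f : F} :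
    rootSet B N f ⊆ rootSet B' N f := fun _ hy => h hy

lemma rootSet_add {B : Subring F} {N : ℕ} (hN : N ≠ 0) (hB : RootClosed B N) {f y z : F}
    (hy : y ∈ rootSet B N f) (hz : z ∈ rootSet B N f) : y + z ∈ rootSet B N f := by
  rw [mem_rootSet] at *
  rw [add_pow, Finset.sum_div]
  refine B.sum_mem fun j hj => ?_
  have hj' : j ≤ N := by
    have := Finset.mem_range.1 hj; omega
  have h1 : y ^ j * z ^ (N - j) * (N.choose j : F) / f =
      (y ^ j * z ^ (N - j) / f) * (N.choose j : F) := by ring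
  rw [h1]
  refine B.mul_mem (hB _ ?_) (natCast_mem B _)
  have h2 : (y ^ j * z ^ (N - j) / f) ^ N = (y ^ N / f) ^ j * (z ^ N / f) ^ (N - j) := by
    by_cases hf : f = 0
    · subst hf
      simp only [div_zero]
      rcases Nat.eq_zero_or_pos j with rfl | hj0
      · simp [hN]
      · simp [hN, zero_pow (by omega : j ≠ 0)]
    · have h3 : f ^ N = f ^ j * f ^ (N - j) := by rw [← pow_add]; congr 1; omega
      rw [div_pow, div_pow, div_pow, h3, mul_pow, ← pow_mul, ← pow_mul, ← pow_mul, ← pow_mul,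
        mul_comm j N, mul_comm (N - j) N]
      rw [div_mul_div_comm]
  rw [h2]
  exact B.mul_mem (B.pow_mem hy _) (B.pow_mem hz _)

lemma rootSet_mul {B : Subring F} {N : ℕ} {f b y : F} (hb : b ∈ B)
    (hy : y ∈ rootSet B N f) : b * y ∈ rootSet B N f := by
  rw [mem_rootSet] at *
  rw [mul_pow, mul_div_assoc]
  exact B.mul_mem (B.pow_mem hb _) hy

lemma rootSet_neg {B : Subring F} {N : ℕ} {f y : F}
    (hy : y ∈ rootSet B N f) : -y ∈ rootSet B N f := by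
  have : -y = (-1) * y := by ring
  rw [this]
  exact rootSet_mul (B.neg_mem B.one_mem) hy

lemma rootSet_sub {B : Subring F} {N : ℕ} (hN : N ≠ 0) (hB : RootClosed B N) {f y z : F}
    (hy : y ∈ rootSet B N f) (hz : z ∈ rootSet B N f) : y - z ∈ rootSet B N f := by
  rw [sub_eq_add_neg]; exact rootSet_add hN hB hy (rootSet_neg hz)

/-- Partition of unity on one chart. -/
lemma exists_chart_root (B Bv : Subring F) (hBv : B ≤ Bv) {N : ℕ} (hN : N ≠ 0)
    (hB : RootClosed B N) {π : B} {f φ : F} (hφ : φ ∈ Bv) (k : ℕ)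
    (hloc : ∀ 𝔪 : Ideal B, 𝔪.IsMaximal → π ∈ 𝔪 →
      ∃ a ∈ rootSet B N f, ∃ b : B, b ∉ 𝔪 ∧ ∃ z ∈ Bv, a - b * φ = (π : F) ^ k * z) :
    ∃ a ∈ rootSet B N f, ∃ z ∈ Bv, a - φ = (π : F) ^ k * z := by
  let I : Ideal B :=
    { carrier := {b | ∃ a ∈ rootSet B N f, ∃ z ∈ Bv, a - b * φ = (π : F) ^ k * z}
      zero_mem' := ⟨0, rootSet_zero hN, 0, Bv.zero_mem, by simp⟩
      add_mem' := by
        rintro b b' ⟨a, ha, z, hz, h⟩ ⟨a', ha', z', hz', h'⟩
        refine ⟨a + a', rootSet_add hN hB ha ha', z + z', Bv.add_mem hz hz', ?_⟩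
        push_cast
        linear_combination h + h'
      smul_mem' := by
        rintro c b ⟨a, ha, z, hz, h⟩
        refine ⟨c * a, rootSet_mul c.2 ha, c * z, Bv.mul_mem (hBv c.2) hz, ?_⟩
        simp only [smul_eq_mul, Subring.coe_mul]
        linear_combination (c : F) * h }
  have hI : I = ⊤ := by
    by_contra hcon
    obtain ⟨𝔪, hm, hIm⟩ := Ideal.exists_le_maximal I hcon
    have hπk : π ^ k ∈ I := ⟨0, rootSet_zero hN, -φ, Bv.neg_mem hφ, by push_cast; ring⟩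
    have hπm : π ∈ 𝔪 := hm.isPrime.mem_of_pow_mem k (hIm hπk)
    obtain ⟨a, ha, b, hb, z, hz, h⟩ := hloc 𝔪 hm hπm
    exact hb (hIm ⟨a, ha, z, hz, h⟩)
  have h1 : (1 : B) ∈ I := by rw [hI]; trivial
  obtain ⟨a, ha, z, hz, h⟩ := h1
  exact ⟨a, ha, z, hz, by simpa using h⟩

/-- **From local roots to a global root.**  `Bp`, `Bm` are the two charts, `Bpm` the overlap and `Bv`
the semi-local ring of the generic points of the special fibre. -/
theorem exists_root_of_local (R₀ Bp Bm Bpm Bv : Subring F) {π : F} (hπ0 : π ≠ 0)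
    (hπp : π ∈ Bp) (hπm : π ∈ Bm) (hpp : Bp ≤ Bpm) (hmm : Bm ≤ Bpm)
    (hpv : Bpm ≤ Bv) (hπv : π⁻¹ ∉ Bv)
    {N : ℕ} (hN : N ≠ 0) (clp : RootClosed Bp N) (clm : RootClosed Bm N)
    (clpm : RootClosed Bpm N) (clv : RootClosed Bv N)
    (sat : ∀ z ∈ Bv, ∀ j : ℕ, π ^ j * z ∈ Bpm → z ∈ Bpm)
    (hint : ∀ x ∈ Bp, x ∈ Bm → x ∈ R₀)
    {f : F} (hf0 : f ≠ 0) (hfv : f ∈ Bv) (hfv' : f⁻¹ ∈ Bv)
    (φ : ℕ → F) (hφ : ∀ k, φ k ∈ Bv) (hφ' : ∀ k, ∃ z ∈ Bv, φ k ^ N - f = π ^ k * z)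
    (hbd : ∃ c : ℕ, ∀ y ∈ rootSet Bpm N f,
      (∃ m : ℕ, ∃ a ∈ rootSet Bp N f, ∃ b ∈ rootSet Bm N f, π ^ m * y = a - b) →
      ∃ a ∈ rootSet Bp N f, ∃ b ∈ rootSet Bm N f, π ^ c * y = a - b)
    (hlocp : ∀ k : ℕ, ∀ 𝔪 : Ideal Bp, 𝔪.IsMaximal → (⟨π, hπp⟩ : Bp) ∈ 𝔪 →
      ∃ a ∈ rootSet Bp N f, ∃ b : Bp, b ∉ 𝔪 ∧ ∃ z ∈ Bv, a - b * φ k = π ^ k * z)
    (hlocm : ∀ k : ℕ, ∀ 𝔪 : Ideal Bm, 𝔪.IsMaximal → (⟨π, hπm⟩ : Bm) ∈ 𝔪 →
      ∃ a ∈ rootSet Bm N f, ∃ b : Bm, b ∉ 𝔪 ∧ ∃ z ∈ Bv, a - b * φ k = π ^ k * z) :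
    ∃ y r : F, y ≠ 0 ∧ r ∈ R₀ ∧ r ≠ 0 ∧ y ^ N = r * f := by
  obtain ⟨c, hc⟩ := hbd
  set k := c + 1 with hk
  obtain ⟨ap, hap, zp, hzp, hp⟩ := exists_chart_root Bp Bv (hpp.trans hpv) hN clp (π := ⟨π, hπp⟩)
    (hφ k) k (hlocp k)
  obtain ⟨am, ham, zm, hzm, hm⟩ := exists_chart_root Bm Bv (hmm.trans hpv) hN clm (π := ⟨π, hπm⟩)
    (hφ k) k (hlocm k)
  simp only at hp hm
  have hπk : π ^ k ≠ 0 := pow_ne_zero _ hπ0
  set y := zp - zm with hy
  have hy1 : ap - am = π ^ k * y := by rw [hy]; linear_combination hp - hm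
  have hyv : y ∈ Bv := Bv.sub_mem hzp hzm
  have hyM : y ∈ rootSet Bpm N f := by
    have h1 : ap - am ∈ rootSet Bpm N f :=
      rootSet_sub hN clpm (rootSet_mono hpp hap) (rootSet_mono hmm ham)
    rw [mem_rootSet] at h1 ⊢
    refine sat _ ?_ (k * N) ?_
    · rw [div_eq_mul_inv]; exact Bv.mul_mem (Bv.pow_mem hyv _) hfv'
    · rw [hy1] at h1
      rwa [mul_pow, ← pow_mul, mul_div_assoc] at h1
  obtain ⟨a', ha', b', hb', hab⟩ := hc y hyM ⟨k, ap, hap, am, ham, hy1.symm⟩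
  set x := π ^ c * ap - π ^ k * a' with hx
  have hx' : x = π ^ c * am - π ^ k * b' := by
    rw [hx]; linear_combination π ^ c * hy1 - (π ^ k) * (-hab)
  have hπpow : ∀ n, π ^ n ∈ Bp := fun n => Bp.pow_mem hπp n
  have hπpowm : ∀ n, π ^ n ∈ Bm := fun n => Bm.pow_mem hπm n
  have hxp : x ∈ rootSet Bp N f :=
    rootSet_sub hN clp (rootSet_mul (hπpow c) hap) (rootSet_mul (hπpow k) ha')
  have hxm : x ∈ rootSet Bm N f := by
    rw [hx']
    exact rootSet_sub hN clm (rootSet_mul (hπpowm c) ham) (rootSet_mul (hπpowm k) hb')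
  have hx0 : x ≠ 0 := by
    intro h0
    have h1 : ap = π * a' := by
      have h2 : π ^ c * ap = π ^ c * (π * a') := by
        have : π ^ c * ap = π ^ k * a' := by rw [← sub_eq_zero, ← hx, h0]
        rw [this, hk]; ring
      exact mul_left_cancel₀ (pow_ne_zero _ hπ0) h2
    have ha'v : a' ∈ Bv := by
      apply clv
      have h3 : a' ^ N = a' ^ N / f * f := by field_simp
      rw [h3]
      exact Bv.mul_mem (hpv (hpp ha')) hfv
    have h4 : φ k = π * (a' - π ^ c * zp) := by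
      have h5 : φ k = ap - π ^ k * zp := by rw [← hp]; ring
      rw [h5, h1, hk]; ring
    obtain ⟨w, hw, hw'⟩ := hφ' k
    have h6 : f = π * (π ^ (N - 1) * (a' - π ^ c * zp) ^ N - π ^ c * w) := by
      have h7 : f = φ k ^ N - π ^ k * w := by rw [← hw']; ring
      have h8 : π ^ N = π * π ^ (N - 1) := by
        rw [← pow_succ']; congr 1; omega
      rw [h7, h4, mul_pow, h8, hk]; ring
    have hπV : π ∈ Bv := hpv (hpp hπp)
    apply hπv
    have h9 : π⁻¹ = (π ^ (N - 1) * (a' - π ^ c * zp) ^ N - π ^ c * w) * f⁻¹ := by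
      field_simp
      exact h6
    rw [h9]
    refine Bv.mul_mem (Bv.sub_mem (Bv.mul_mem (Bv.pow_mem hπV _) (Bv.pow_mem ?_ _))
      (Bv.mul_mem (Bv.pow_mem hπV _) hw)) hfv'
    exact Bv.sub_mem ha'v (Bv.mul_mem (Bv.pow_mem hπV _) hzp)
  refine ⟨x, x ^ N / f, hx0, hint _ hxp hxm, div_ne_zero (pow_ne_zero _ hx0) hf0, ?_⟩
  field_simp

end Frac

end Fermat.Agent.Connect
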