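import Mathlib

/-!
# Integral closures of subrings of a field, localisations, saturation
-/

set_option autoImplicit false

namespace Fermat.Agent.Connect

open Polynomial

section ICl

variable {E F : Type*} [Field E] [Field F] [Algebra E F]

/-- integral closure in `F` of a subring `A` of `E`. -/
def icl (F : Type*) [Field F] [Algebra E F] (A : Subring E) : Subring F :=
  (integralClosure A F).toSubring

lemma mem_icl {A : Subring E} {z : F} : z ∈ icl F A ↔ IsIntegral A z := Iff.rfl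

lemma isIntegral_iff_exists {A : Subring E} {z : F} :
    IsIntegral A z ↔ ∃ p : E[X], p.Monic ∧ (∀ i, p.coeff i ∈ A) ∧ aeval z p = 0 := by
  constructor
  · rintro ⟨p, hp, hz⟩
    refine ⟨p.map (algebraMap A E), hp.map _, fun i => ?_, ?_⟩
    · rw [coeff_map]; exact (p.coeff i).2
    · rw [aeval_map_algebraMap]; exact hz
  · rintro ⟨p, hp, hc, hz⟩
    have hc' : (↑p.coeffs : Set E) ⊆ A := by
      intro x hx
      obtain ⟨i, -, rfl⟩ := Polynomial.mem_coeffs_iff.1 hx
      exact hc i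
    refine ⟨p.toSubring A hc', (monic_toSubring p A hc').2 hp, ?_⟩
    have h1 : (p.toSubring A hc').map (algebraMap A E) = p := map_toSubring p A hc'
    rw [← aeval_def, ← aeval_map_algebraMap E z (p.toSubring A hc'), h1, hz]

lemma icl_mono {A B : Subring E} (h : A ≤ B) : icl F A ≤ icl F B := by
  intro z hz
  obtain ⟨p, h1, h2, h3⟩ := isIntegral_iff_exists.1 (mem_icl.1 hz)
  exact mem_icl.2 (isIntegral_iff_exists.2 ⟨p, h1, fun i => h (h2 i), h3⟩)

lemma algebraMap_mem_icl {A : Subring E} {x : E} (hx : x ∈ A) : algebraMap E F x ∈ icl F A :=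
  mem_icl.2 (isIntegral_algebraMap (R := A) (A := F) (x := ⟨x, hx⟩))

lemma rootClosed_icl {A : Subring E} {N : ℕ} (hN : N ≠ 0) {x : F} (h : x ^ N ∈ icl F A) :
    x ∈ icl F A :=
  mem_icl.2 (IsIntegral.of_pow (Nat.pos_of_ne_zero hN) (mem_icl.1 h))

/-- `A` is integrally closed in `E`. -/
def ICIn (A : Subring E) : Prop := ∀ x : E, IsIntegral A x → x ∈ A

lemma isIntegral_field_of_mem_icl {A : Subring E} {z : F} (hz : z ∈ icl F A) : IsIntegral E z := by
  obtain ⟨p, h1, -, h3⟩ := isIntegral_iff_exists.1 (mem_icl.1 hz)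
  exact ⟨p, h1, h3⟩

lemma minpoly_coeff_mem {A : Subring E} (hA : ICIn A) {z : F} (hz : z ∈ icl F A) (i : ℕ) :
    (minpoly E z).coeff i ∈ A := by
  apply hA
  obtain ⟨p, hp, hpz⟩ := mem_icl.1 hz
  refine isIntegral_coeff_of_dvd p (minpoly E z) hp
    (minpoly.monic (isIntegral_field_of_mem_icl hz)) ?_ i
  refine minpoly.dvd E z ?_
  rw [aeval_map_algebraMap]
  exact hpz

lemma mem_icl_of_minpoly {A : Subring E} {z : F} (hz : IsIntegral E z)
    (h : ∀ i, (minpoly E z).coeff i ∈ A) : z ∈ icl F A :=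
  mem_icl.2 (isIntegral_iff_exists.2 ⟨minpoly E z, minpoly.monic hz, h, minpoly.aeval E z⟩)

lemma mem_icl_inf {A₁ A₂ : Subring E} (h₁ : ICIn A₁) (h₂ : ICIn A₂) {z : F}
    (hz₁ : z ∈ icl F A₁) (hz₂ : z ∈ icl F A₂) : z ∈ icl F (A₁ ⊓ A₂) :=
  mem_icl_of_minpoly (isIntegral_field_of_mem_icl hz₁)
    fun i => ⟨minpoly_coeff_mem h₁ hz₁ i, minpoly_coeff_mem h₂ hz₂ i⟩

lemma minpoly_scale {s : E} (hs : s ≠ 0) {z : F} (hz : IsIntegral E z) :
    minpoly E (algebraMap E F s * z) = (minpoly E z).scaleRoots s := by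
  have hw : IsIntegral E (algebraMap E F s * z) := isIntegral_algebraMap.mul hz
  have h1 : minpoly E (algebraMap E F s * z) ∣ (minpoly E z).scaleRoots s :=
    minpoly.dvd E _ (scaleRoots_aeval_eq_zero (minpoly.aeval E z))
  have h2 : minpoly E z ∣ (minpoly E (algebraMap E F s * z)).scaleRoots s⁻¹ := by
    refine minpoly.dvd E _ ?_
    have := scaleRoots_aeval_eq_zero (r := s⁻¹) (minpoly.aeval E (algebraMap E F s * z))
    rwa [← mul_assoc, ← map_mul, inv_mul_cancel₀ hs, map_one, one_mul] at this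
  have hm1 := minpoly.monic hw
  have hm2 := (monic_scaleRoots_iff s).2 (minpoly.monic hz)
  refine (eq_of_monic_of_dvd_of_natDegree_le hm1 hm2 h1 ?_).symm
  rw [natDegree_scaleRoots]
  have h3 := natDegree_le_of_dvd h2 ((monic_scaleRoots_iff _).2 hm1).ne_zero
  rwa [natDegree_scaleRoots] at h3

/-- **Saturation.** -/
lemma mem_icl_of_pow_mul {A Av : Subring E} (hA : ICIn A) (hv : ICIn Av) {π : E} (hπ : π ≠ 0)
    (base : ∀ x ∈ Av, ∀ j : ℕ, π ^ j * x ∈ A → x ∈ A) {z : F} (hz : z ∈ icl F Av) (j : ℕ)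
    (h : algebraMap E F π ^ j * z ∈ icl F A) : z ∈ icl F A := by
  have hzE := isIntegral_field_of_mem_icl hz
  refine mem_icl_of_minpoly hzE fun i => ?_
  rw [← map_pow] at h
  have h1 := minpoly_coeff_mem hA h i
  rw [minpoly_scale (pow_ne_zero _ hπ) hzE, coeff_scaleRoots, ← pow_mul, mul_comm] at h1
  exact base _ (minpoly_coeff_mem hv hz i) _ h1

/-- localisation of a subring of a field. -/
def loc (A : Subring E) (S : Submonoid E) (hS : ∀ s ∈ S, s ∈ A) : Subring E where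
  carrier := {x | ∃ s ∈ S, s * x ∈ A}
  mul_mem' := by
    rintro a b ⟨s, hs, hsa⟩ ⟨t, ht, htb⟩
    exact ⟨s * t, S.mul_mem hs ht, by
      rw [show s * t * (a * b) = (s * a) * (t * b) by ring]; exact A.mul_mem hsa htb⟩
  one_mem' := ⟨1, S.one_mem, by rw [one_mul]; exact A.one_mem⟩
  add_mem' := by
    rintro a b ⟨s, hs, hsa⟩ ⟨t, ht, htb⟩
    exact ⟨s * t, S.mul_mem hs ht, by
      rw [show s * t * (a + b) = t * (s * a) + s * (t * b) by ring]
      exact A.add_mem (A.mul_mem (hS _ ht) hsa) (A.mul_mem (hS _ hs) htb)⟩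
  zero_mem' := ⟨1, S.one_mem, by rw [mul_zero]; exact A.zero_mem⟩
  neg_mem' := by
    rintro a ⟨s, hs, hsa⟩
    exact ⟨s, hs, by rw [mul_neg]; exact A.neg_mem hsa⟩

lemma mem_loc {A : Subring E} {S : Submonoid E} {hS : ∀ s ∈ S, s ∈ A} {x : E} :
    x ∈ loc A S hS ↔ ∃ s ∈ S, s * x ∈ A := Iff.rfl

lemma le_loc {A : Subring E} {S : Submonoid E} {hS : ∀ s ∈ S, s ∈ A} : A ≤ loc A S hS :=
  fun x hx => ⟨1, S.one_mem, by rwa [one_mul]⟩

lemma exists_mul_mem_icl {A : Subring E} {S : Submonoid E} {hS : ∀ s ∈ S, s ∈ A} {z : F}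
    (hz : z ∈ icl F (loc A S hS)) : ∃ s ∈ S, algebraMap E F s * z ∈ icl F A := by
  classical
  obtain ⟨p, hp, hc, hpz⟩ := isIntegral_iff_exists.1 (mem_icl.1 hz)
  have hcom : ∀ T : Finset ℕ, ∃ s ∈ S, ∀ i ∈ T, s * p.coeff i ∈ A := by
    intro T
    induction T using Finset.induction_on with
    | empty => exact ⟨1, S.one_mem, by simp⟩
    | insert a T ha ih =>
      obtain ⟨s, hs, hsi⟩ := ih
      obtain ⟨t, ht, hta⟩ := hc a
      refine ⟨t * s, S.mul_mem ht hs, ?_⟩
      intro i hi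
      rcases Finset.mem_insert.1 hi with rfl | hi
      · rw [show t * s * p.coeff i = s * (t * p.coeff i) by ring]
        exact A.mul_mem (hS _ hs) hta
      · rw [mul_assoc]; exact A.mul_mem (hS _ ht) (hsi i hi)
  obtain ⟨s, hs, hsi⟩ := hcom (Finset.range (p.natDegree + 1))
  refine ⟨s, hs, mem_icl.2 (isIntegral_iff_exists.2 ⟨p.scaleRoots s,
    (monic_scaleRoots_iff s).2 hp, fun i => ?_, scaleRoots_aeval_eq_zero hpz⟩)⟩
  rw [coeff_scaleRoots]
  rcases lt_trichotomy i p.natDegree with h | h | h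
  · obtain ⟨k, hk⟩ : ∃ k, p.natDegree - i = k + 1 := ⟨p.natDegree - i - 1, by omega⟩
    rw [hk, pow_succ, show p.coeff i * (s ^ k * s) = s ^ k * (s * p.coeff i) by ring]
    exact A.mul_mem (A.pow_mem (hS _ hs) _) (hsi i (Finset.mem_range.2 (by omega)))
  · subst h
    simp only [Nat.sub_self, pow_zero, mul_one]
    rw [coeff_natDegree, hp.leadingCoeff]; exact A.one_mem
  · rw [coeff_eq_zero_of_natDegree_lt h, zero_mul]; exact A.zero_mem

lemma mem_icl_loc {A : Subring E} {S : Submonoid E} {hS : ∀ s ∈ S, s ∈ A} {z : F} {s : E}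
    (hs : s ∈ S) (hs0 : s ≠ 0) (h : algebraMap E F s * z ∈ icl F A) : z ∈ icl F (loc A S hS) := by
  have h1 : s⁻¹ ∈ loc A S hS := ⟨s, hs, by rw [mul_inv_cancel₀ hs0]; exact A.one_mem⟩
  have h2 : z = algebraMap E F s⁻¹ * (algebraMap E F s * z) := by
    rw [← mul_assoc, ← map_mul, inv_mul_cancel₀ hs0, map_one, one_mul]
  rw [h2]
  exact (icl F _).mul_mem (algebraMap_mem_icl h1) (icl_mono le_loc h)

lemma icIn_loc {A : Subring E} (hA : ICIn A) {S : Submonoid E} {hS : ∀ s ∈ S, s ∈ A} :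
    ICIn (loc A S hS) := by
  intro x hx
  obtain ⟨s, hs, h⟩ := exists_mul_mem_icl (F := E) (mem_icl.2 hx)
  exact ⟨s, hs, hA _ (mem_icl.1 h)⟩

/-- the range of an injective ring hom from an integrally closed domain generating the field. -/
lemma icIn_range {S : Type*} [CommRing S] [IsDomain S] [IsIntegrallyClosed S] (φ : S →+* E)
    (hφ : Function.Injective φ) (hfrac : ∀ e : E, ∃ a b : S, b ≠ 0 ∧ e * φ b = φ a) :
    ICIn φ.range := by
  let alg : Algebra S E := φ.toAlgebra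
  have hfr : IsFractionRing S E :=
    { map_units := by
        rintro ⟨y, hy⟩
        have hy0 : φ y ≠ 0 := by
          intro h0
          have : y = 0 := hφ (by rw [h0, map_zero])
          exact (nonZeroDivisors.ne_zero hy) this
        exact isUnit_iff_ne_zero.2 hy0
      surj := by
        intro z
        obtain ⟨a, b, hb, h⟩ := hfrac z
        exact ⟨(a, ⟨b, mem_nonZeroDivisors_of_ne_zero hb⟩), h⟩
      exists_of_eq := by
        intro x y hxy
        exact ⟨1, by simpa using hφ hxy⟩ }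
  intro x hx
  have h1 : IsIntegral S x := by
    obtain ⟨p, hp, hc, hpx⟩ := isIntegral_iff_exists.1 hx
    have hlift : p ∈ lifts φ := by
      rw [lifts_iff_coeff_lifts]
      intro i
      exact hc i
    obtain ⟨q, hq, -, hqm⟩ := lifts_and_natDegree_eq_and_monic hlift hp
    refine ⟨q, hqm, ?_⟩
    change eval₂ φ x q = 0
    rw [← eval_map, hq]
    simpa [aeval_def] using hpx
  obtain ⟨y, hy⟩ := IsIntegrallyClosed.isIntegral_iff.1 h1
  exact ⟨y, hy⟩

end ICl

end Fermat.Agent.Connect
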