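import Mathlib

/-!
# Local `N`-th roots along a union of smooth branches

`O` a local ring, `π i` pairwise non associated primes with `O/(π i)` one dimensional.  If a unit `u`
(with value `1` at the closed point) has an `N`-th root along every branch `π i = 0`, with value `1`
at the closed point, then it has an `N`-th root modulo every power of `∏ π i`.
-/

set_option autoImplicit false

namespace Fermat.Agent.Connect

open Ideal

section Newton

variable {O : Type*} [CommRing O]

/-- One Newton step. -/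
lemma newton_step {N : ℕ} (hN : IsUnit (N : O)) {I : Ideal O} {u z : O} (hz : IsUnit z) {j : ℕ}
    (hj : 1 ≤ j) (h : z ^ N - u ∈ I ^ j) : ∃ z', z' - z ∈ I ^ j ∧ z' ^ N - u ∈ I ^ (j + 1) := by
  obtain ⟨v, hv⟩ := (hN.mul (hz.pow (N - 1))).exists_left_inv
  set δ := v * (z ^ N - u) with hδ
  have hδI : δ ∈ I ^ j := Ideal.mul_mem_left _ _ h
  obtain ⟨k, hk⟩ := Polynomial.powAddExpansion z (-δ) N
  refine ⟨z + -δ, ?_, ?_⟩
  · have : z + -δ - z = -δ := by ring
    rw [this]; exact (I ^ j).neg_mem hδI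
  · have h1 : (z + -δ) ^ N - u = k * δ ^ 2 := by
      rw [hk]
      have : (N : O) * z ^ (N - 1) * δ = z ^ N - u := by
        rw [hδ, ← mul_assoc, mul_comm _ v, hv, one_mul]
      linear_combination -this
    rw [h1]
    refine Ideal.mul_mem_left _ _ ?_
    have h2 : δ ^ 2 ∈ (I ^ j) ^ 2 := Ideal.pow_mem_pow hδI 2
    rw [← pow_mul] at h2
    exact Ideal.pow_le_pow_right (by omega) h2

lemma isUnit_of_sub_mem {I : Ideal O} (hI : I ≤ jacobson ⊥) {y z : O} (hz : IsUnit z)
    (h : y - z ∈ I) : IsUnit y := by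
  obtain ⟨v, hv⟩ := hz.exists_left_inv
  have h1 : v * y - 1 ∈ jacobson (⊥ : Ideal O) := by
    have : v * y - 1 = v * (y - z) := by rw [mul_sub, hv]
    rw [this]
    exact Ideal.mul_mem_left _ _ (hI h)
  exact isUnit_of_mul_isUnit_right (isUnit_of_sub_one_mem_jacobson_bot _ h1)

/-- Newton iteration. -/
lemma newton {N : ℕ} (hN : IsUnit (N : O)) {I : Ideal O} (hI : I ≤ jacobson ⊥) {u z : O}
    (hz : IsUnit z) (h : z ^ N - u ∈ I) (k : ℕ) :
    ∃ z', z' - z ∈ I ∧ z' ^ N - u ∈ I ^ k := by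
  have : ∀ k : ℕ, ∃ z', z' - z ∈ I ∧ z' ^ N - u ∈ I ^ (k + 1) := by
    intro k
    induction k with
    | zero => exact ⟨z, by simp, by simpa using h⟩
    | succ k ih =>
      obtain ⟨y, hy1, hy2⟩ := ih
      have hyu : IsUnit y := isUnit_of_sub_mem hI hz hy1
      obtain ⟨z', hz1, hz2⟩ := newton_step hN hyu (by omega) hy2
      refine ⟨z', ?_, hz2⟩
      have : z' - z = (z' - y) + (y - z) := by ring
      rw [this]
      exact I.add_mem (Ideal.pow_le_self (by omega) hz1) hy1
  rcases k with _ | k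
  · obtain ⟨z', h1, -⟩ := this 0
    exact ⟨z', h1, by simp⟩
  · exact this k

end Newton

section Primes

variable {O : Type*} [CommRing O] {ι : Type*}

/-- pairwise non-associated primes dividing `z`: the product divides `z`. -/
lemma prod_dvd_of_primes (s : Finset ι) (π : ι → O) (hπ : ∀ i ∈ s, Prime (π i))
    (hne : ∀ i ∈ s, ∀ j ∈ s, i ≠ j → ¬ π i ∣ π j) {z : O} (hz : ∀ i ∈ s, π i ∣ z) :
    ∏ i ∈ s, π i ∣ z := by
  classical
  induction s using Finset.induction_on with
  | empty => simp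
  | insert a s ha ih =>
    obtain ⟨w, rfl⟩ := ih (fun i hi => hπ i (Finset.mem_insert_of_mem hi))
      (fun i hi j hj => hne i (Finset.mem_insert_of_mem hi) j (Finset.mem_insert_of_mem hj))
      (fun i hi => hz i (Finset.mem_insert_of_mem hi))
    rw [Finset.prod_insert ha, mul_comm]
    refine mul_dvd_mul_left _ ?_
    have hpa := hπ a (Finset.mem_insert_self a s)
    rcases hpa.dvd_or_dvd (hz a (Finset.mem_insert_self a s)) with h | h
    · exfalso
      obtain ⟨i, hi, hi'⟩ := (Prime.dvd_finsetProd_iff hpa _).1 h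
      exact hne a (Finset.mem_insert_self a s) i (Finset.mem_insert_of_mem hi)
        (by rintro rfl; exact ha hi) hi'
    · exact h

end Primes

section LocalRoot

variable {O : Type*} [CommRing O] [IsLocalRing O]

open IsLocalRing

/-- difference of `N`-th roots of the same residue. -/
lemma sub_mem_of_pow_sub_mem {N : ℕ} (hN : IsUnit (N : O)) {J : Ideal O} {x y : O}
    (hx : x - 1 ∈ maximalIdeal O) (hy : y - 1 ∈ maximalIdeal O) (h : x ^ N - y ^ N ∈ J) :
    x - y ∈ J := by
  have h1 : x ^ N - y ^ N = (x - y) * ∑ i ∈ Finset.range N, x ^ i * y ^ (N - 1 - i) :=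
    ((Commute.all x y).mul_geom_sum₂ N).symm
  have hxy : ∀ z : O, z - 1 ∈ maximalIdeal O → residue O z = 1 := by
    intro z hz
    have : residue O (z - 1) = 0 := (residue_eq_zero_iff _).2 hz
    rw [map_sub, map_one, sub_eq_zero] at this
    exact this
  have h2 : IsUnit (∑ i ∈ Finset.range N, x ^ i * y ^ (N - 1 - i)) := by
    by_contra hcon
    have h3 : residue O (∑ i ∈ Finset.range N, x ^ i * y ^ (N - 1 - i)) = 0 :=
      (residue_eq_zero_iff _).2 ((mem_maximalIdeal _).2 hcon)
    rw [map_sum] at h3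
    simp only [map_mul, map_pow, hxy x hx, hxy y hy, one_pow, mul_one, Finset.sum_const,
      Finset.card_range, nsmul_eq_mul] at h3
    have h4 : residue O (N : O) = 0 := by simpa using h3
    exact ((mem_maximalIdeal _).1 ((residue_eq_zero_iff _).1 h4)) hN
  obtain ⟨v, hv⟩ := h2.exists_right_inv
  have h5 : x - y = (x ^ N - y ^ N) * v := by rw [h1, mul_assoc, hv, mul_one]
  rw [h5]
  exact J.mul_mem_right _ h

variable {ι : Type*} [Fintype ι]

/-- **Local roots.** -/
theorem local_root {N : ℕ} (hN : IsUnit (N : O)) (π : ι → O) (hπ : ∀ i, Prime (π i))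
    (hcop : ∀ i j, i ≠ j → ∃ n : ℕ, maximalIdeal O ^ n ≤ span {π i} ⊔ span {π j})
    (hne : ∀ i j, i ≠ j → ¬ π i ∣ π j)
    {u : O} (hu : u - 1 ∈ maximalIdeal O) (w : ι → O) (hw : ∀ i, w i - 1 ∈ maximalIdeal O)
    (hwu : ∀ i, π i ∣ w i ^ N - u) (k : ℕ) :
    ∃ z : O, z - 1 ∈ maximalIdeal O ∧ (∀ i, π i ∣ z - w i) ∧ (∏ i, π i) ^ k ∣ z ^ N - u := by
  classical
  have hjac : maximalIdeal O ≤ jacobson ⊥ := maximalIdeal_le_jacobson ⊥
  have hπm : ∀ i, π i ∈ maximalIdeal O := fun i => (mem_maximalIdeal _).2 (hπ i).not_isUnit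
  let P : ι → O := fun i => ∏ j ∈ Finset.univ.erase i, π j
  -- conductor
  have hcond : ∀ i, ∃ n : ℕ, maximalIdeal O ^ n ≤ span {π i} ⊔ span {P i} := by
    intro i
    have : ∀ s : Finset ι, i ∉ s →
        ∃ n : ℕ, maximalIdeal O ^ n ≤ span {π i} ⊔ span {∏ j ∈ s, π j} := by
      intro s
      induction s using Finset.induction_on with
      | empty =>
        intro _
        exact ⟨0, by simp⟩
      | insert a s ha ih =>
        intro his
        obtain ⟨n, hn⟩ := ih (fun h => his (Finset.mem_insert_of_mem h))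
        obtain ⟨m, hm⟩ := hcop i a (by rintro rfl; exact his (Finset.mem_insert_self _ _))
        refine ⟨m + n, ?_⟩
        rw [pow_add, Finset.prod_insert ha]
        refine (Ideal.mul_mono hm hn).trans ?_
        rw [Ideal.sup_mul, Ideal.mul_sup, Ideal.mul_sup, Ideal.span_singleton_mul_span_singleton,
          Ideal.span_singleton_mul_span_singleton, Ideal.span_singleton_mul_span_singleton,
          Ideal.span_singleton_mul_span_singleton]
        refine sup_le (sup_le ?_ ?_) (sup_le ?_ ?_)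
        · exact le_sup_of_le_left (Ideal.span_singleton_le_span_singleton.2 (dvd_mul_right _ _))
        · exact le_sup_of_le_left (Ideal.span_singleton_le_span_singleton.2 (dvd_mul_right _ _))
        · exact le_sup_of_le_left (Ideal.span_singleton_le_span_singleton.2 (dvd_mul_left _ _))
        · exact le_sup_of_le_right le_rfl
    exact this _ (Finset.notMem_erase _ _)
  choose n hn using hcond
  -- Newton iteration at the closed point
  obtain ⟨z₁, hz₁, hz₁'⟩ := newton hN hjac (u := u) (z := 1) isUnit_one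
    (by have : (1 : O) ^ N - u = -(u - 1) := by ring
        rw [this]; exact (maximalIdeal O).neg_mem hu) (∑ i, n i)
  have hdiff : ∀ i, ∃ c : O, π i ∣ w i - z₁ - P i * c := by
    intro i
    have h1 : z₁ ^ N - w i ^ N ∈ span {π i} ⊔ span {P i} := by
      have : z₁ ^ N - w i ^ N = (z₁ ^ N - u) - (w i ^ N - u) := by ring
      rw [this]
      refine Ideal.sub_mem _ (hn i (Ideal.pow_le_pow_right ?_ hz₁')) ?_
      · exact Finset.single_le_sum (f := n) (fun _ _ => Nat.zero_le _) (Finset.mem_univ i)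
      · exact Ideal.mem_sup_left (Ideal.mem_span_singleton.2 (hwu i))
    have h2 := sub_mem_of_pow_sub_mem hN hz₁ (hw i) h1
    obtain ⟨a, ha, b, hb, hab⟩ := Submodule.mem_sup.1 h2
    obtain ⟨a', rfl⟩ := Ideal.mem_span_singleton'.1 ha
    obtain ⟨b', rfl⟩ := Ideal.mem_span_singleton'.1 hb
    refine ⟨-b', -a', ?_⟩
    linear_combination hab
  choose c hc using hdiff
  have hPc : ∀ i, P i * c i ∈ maximalIdeal O := by
    intro i
    have h1 : w i - z₁ - P i * c i ∈ maximalIdeal O :=
      Ideal.mem_of_dvd _ (hc i) (hπm i)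
    have h2 : P i * c i = (w i - 1) - (z₁ - 1) - (w i - z₁ - P i * c i) := by ring
    rw [h2]
    exact Ideal.sub_mem _ (Ideal.sub_mem _ (hw i) hz₁) h1
  set z₂ := z₁ + ∑ i, P i * c i with hz₂
  have hz₂1 : z₂ - 1 ∈ maximalIdeal O := by
    have : z₂ - 1 = (z₁ - 1) + ∑ i, P i * c i := by rw [hz₂]; ring
    rw [this]
    exact Ideal.add_mem _ hz₁ (Ideal.sum_mem _ fun i _ => hPc i)
  have hz₂w : ∀ i, π i ∣ z₂ - w i := by
    intro i
    have h1 : z₂ - w i = -(w i - z₁ - P i * c i) + ∑ j ∈ Finset.univ.erase i, P j * c j := by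
      rw [hz₂, ← Finset.add_sum_erase _ _ (Finset.mem_univ i)]; ring
    rw [h1]
    refine dvd_add ((dvd_neg).2 (hc i)) (Finset.dvd_sum fun j hj => ?_)
    refine Dvd.dvd.mul_right ?_ _
    exact Finset.dvd_prod_of_mem _ (Finset.mem_erase.2
      ⟨(Finset.ne_of_mem_erase hj).symm, Finset.mem_univ _⟩)
  have hz₂u : ∏ i, π i ∣ z₂ ^ N - u := by
    refine prod_dvd_of_primes _ π (fun i _ => hπ i) (fun i _ j _ => hne i j) fun i _ => ?_
    have h1 : z₂ ^ N - u = (z₂ ^ N - w i ^ N) + (w i ^ N - u) := by ring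
    rw [h1]
    exact dvd_add ((hz₂w i).trans (sub_dvd_pow_sub_pow _ _ _)) (hwu i)
  rcases isEmpty_or_nonempty ι with hι | hι
  · refine ⟨z₂, hz₂1, hz₂w, ?_⟩
    simp
  have hPi : span {∏ i, π i} ≤ maximalIdeal O := by
    rw [Ideal.span_singleton_le_iff_mem]
    obtain ⟨i⟩ := hι
    exact Ideal.mem_of_dvd _ (Finset.dvd_prod_of_mem π (Finset.mem_univ i)) (hπm i)
  have hz₂unit : IsUnit z₂ := isUnit_of_sub_mem hjac isUnit_one hz₂1
  obtain ⟨z, hz, hz'⟩ := newton hN (hPi.trans hjac) hz₂unit (Ideal.mem_span_singleton.2 hz₂u) k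
  refine ⟨z, ?_, ?_, ?_⟩
  · have : z - 1 = (z - z₂) + (z₂ - 1) := by ring
    rw [this]
    exact Ideal.add_mem _ (hPi hz) hz₂1
  · intro i
    have : z - w i = (z - z₂) + (z₂ - w i) := by ring
    rw [this]
    exact dvd_add ((Finset.dvd_prod_of_mem π (Finset.mem_univ i)).trans
      (Ideal.mem_span_singleton.1 hz)) (hz₂w i)
  · rw [Ideal.span_singleton_pow, Ideal.mem_span_singleton] at hz'
    exact hz'

end LocalRoot

end Fermat.Agent.Connect
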